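import Mathlib
import Fermat.Agent.S21.H585.Cocycle

/-!
# S41 / PD (helper621) — potentials on an abstract cusp model from edge data

`CuspModel V` : an abstract model of `P¹(ℚ)` with its `SL(2,ℤ)`-action (base point `∞`,
`-1` acts trivially, `T` fixes `∞`, transitivity, stabiliser of `∞` is `±⟨T⟩`).

`exists_kappa` : simple connectivity of the Farey complex in the form we need: an alternating
edge function `e` with zero triangle sums is the coboundary of a vertex function `κ`.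
This is a repackaging of `S21.H585.exists_cocycle` (`PSL(2,ℤ) = C₂ * C₃`).

`const_of_edge` : connectivity of the Farey graph.
-/

set_option autoImplicit false

namespace Fermat.Agent.S41.H621

open Matrix.SpecialLinearGroup ModularGroup
open scoped MatrixGroups

/-- The rotation `R = S * T` (order 3 in `PSL(2,ℤ)`): `∞ ↦ 0 ↦ -1 ↦ ∞`. -/
def Rm : SL(2, ℤ) := S * T

theorem S_mul_S : (S * S : SL(2, ℤ)) = -1 := Fermat.Agent.S21.H585.S_mul_S_eq_neg_one

theorem Rm_cube : (Rm * Rm * Rm : SL(2, ℤ)) = -1 := Fermat.Agent.S21.H585.ST_cube_eq_neg_one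

theorem neg_inv_SL (g : SL(2, ℤ)) : (-g)⁻¹ = -g⁻¹ := by
  rw [inv_eq_iff_mul_eq_one, neg_mul_neg, mul_inv_cancel]

theorem S_inv : (S⁻¹ : SL(2, ℤ)) = -S := by
  rw [inv_eq_iff_mul_eq_one, mul_neg, S_mul_S, neg_neg]

theorem Rm_inv : (Rm⁻¹ : SL(2, ℤ)) = -(Rm * Rm) := by
  rw [inv_eq_iff_mul_eq_one, mul_neg, ← mul_assoc, Rm_cube, neg_neg]

theorem Rm_inv_sq : (Rm⁻¹ * Rm⁻¹ : SL(2, ℤ)) = -Rm := by
  rw [← mul_inv_rev, inv_eq_iff_mul_eq_one, mul_neg, Rm_cube, neg_neg]

theorem T_inv_eq : (T⁻¹ : SL(2, ℤ)) = Rm⁻¹ * S := by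
  rw [Rm, mul_inv_rev, inv_mul_cancel_right]

/-- An abstract model of the set of cusps `P¹(ℚ)` with its `SL(2,ℤ)`-action. -/
structure CuspModel (V : Type*) [MulAction SL(2, ℤ) V] where
  /-- the base cusp `∞` -/
  inf : V
  neg_smul : ∀ v : V, (-1 : SL(2, ℤ)) • v = v
  T_smul_inf : (T : SL(2, ℤ)) • inf = inf
  trans : ∀ v : V, ∃ g : SL(2, ℤ), g • inf = v
  stab : ∀ g : SL(2, ℤ), g • inf = inf → ∃ n : ℤ, g = T ^ n ∨ g = -T ^ n

namespace CuspModel

variable {V : Type*} [MulAction SL(2, ℤ) V] (M : CuspModel V)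

/-- the cusp `0 = S ∞` -/
def zero : V := (S : SL(2, ℤ)) • M.inf

/-- the cusp `-1 = R 0` -/
def mone : V := Rm • M.zero

include M in
theorem neg_smul' (g : SL(2, ℤ)) (v : V) : (-g) • v = g • v := by
  have : (-g : SL(2, ℤ)) = g * (-1) := by rw [mul_neg, mul_one]
  rw [this, mul_smul, M.neg_smul]

theorem S_smul_inf : (S : SL(2, ℤ)) • M.inf = M.zero := rfl

theorem S_smul_zero : (S : SL(2, ℤ)) • M.zero = M.inf := by
  rw [zero, ← mul_smul, S_mul_S, M.neg_smul]

theorem Rm_smul_inf : Rm • M.inf = M.zero := by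
  rw [Rm, mul_smul, M.T_smul_inf]; rfl

theorem Rm_smul_zero : Rm • M.zero = M.mone := rfl

theorem Rm_smul_mone : Rm • M.mone = M.inf := by
  rw [mone, ← M.Rm_smul_inf, ← mul_smul, ← mul_smul, Rm_cube, M.neg_smul]

theorem T_zpow_smul_inf (n : ℤ) : (T ^ n : SL(2, ℤ)) • M.inf = M.inf := by
  have h : (T : SL(2, ℤ)) ∈ MulAction.stabilizer SL(2, ℤ) M.inf := M.T_smul_inf
  exact (MulAction.stabilizer SL(2, ℤ) M.inf).zpow_mem h n

/-- Two elements with the same image of `∞` differ by `± T ^ n` on the right. -/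
theorem eq_mul_of_smul_inf_eq {g g' : SL(2, ℤ)} (h : g • M.inf = g' • M.inf) :
    ∃ n : ℤ, g' = g * T ^ n ∨ g' = -(g * T ^ n) := by
  have h1 : (g⁻¹ * g') • M.inf = M.inf := by
    rw [mul_smul, ← h, inv_smul_smul]
  obtain ⟨n, hn | hn⟩ := M.stab _ h1
  · exact ⟨n, Or.inl (by rw [← hn, mul_inv_cancel_left])⟩
  · refine ⟨n, Or.inr ?_⟩
    rw [← mul_neg, ← hn, mul_inv_cancel_left]

end CuspModel

section Kappa

variable {V : Type*} [MulAction SL(2, ℤ) V] (M : CuspModel V) {K : Type*} [AddCommGroup K]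

/-- the subgroup `{±1}` -/
abbrev pmOne : Subgroup SL(2, ℤ) := Subgroup.zpowers (-1 : SL(2, ℤ))

theorem mem_pmOne {z : SL(2, ℤ)} : z ∈ pmOne ↔ z = 1 ∨ z = -1 := by
  constructor
  · intro hz
    obtain ⟨n, rfl⟩ := Subgroup.mem_zpowers_iff.mp hz
    rcases Int.even_or_odd n with ⟨k, rfl⟩ | ⟨k, rfl⟩
    · left
      rw [← two_mul, zpow_mul, zpow_ofNat, neg_one_sq, one_zpow]
    · right
      rw [zpow_add, zpow_one, zpow_mul, zpow_ofNat, neg_one_sq, one_zpow, one_mul]
  · rintro (rfl | rfl)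
    · exact one_mem _
    · exact Subgroup.mem_zpowers _

/-- A `±`-invariant function on `SL(2,ℤ)`, precomposed with inversion, as a function on
`SL(2,ℤ) ⧸ {±1}`. -/
def invLift (e : SL(2, ℤ) → K) (he : ∀ g, e (-g) = e g) : SL(2, ℤ) ⧸ pmOne → K :=
  fun x => Quotient.liftOn' x (fun h => e h⁻¹) (by
    intro a b hab
    rw [QuotientGroup.leftRel_apply, mem_pmOne] at hab
    rcases hab with h | h
    · have : b = a := by
        have := congrArg (fun t => a * t) h
        simpa using this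
      rw [this]
    · have : b = -a := by
        have := congrArg (fun t => a * t) h
        simpa using this
      show e a⁻¹ = e b⁻¹
      rw [this, neg_inv_SL, he])

omit [AddCommGroup K] in
theorem invLift_mk (e : SL(2, ℤ) → K) (he : ∀ g, e (-g) = e g) (h : SL(2, ℤ)) :
    invLift e he (h : SL(2, ℤ) ⧸ pmOne) = e h⁻¹ := rfl

theorem smul_mk_pmOne (g h : SL(2, ℤ)) :
    g • (h : SL(2, ℤ) ⧸ pmOne) = ((g * h : SL(2, ℤ)) : SL(2, ℤ) ⧸ pmOne) := rfl

theorem neg_smul_pmOne (x : SL(2, ℤ) ⧸ pmOne) : (-1 : SL(2, ℤ)) • x = x := by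
  induction x using QuotientGroup.induction_on with
  | H h =>
    rw [smul_mk_pmOne, QuotientGroup.eq, mem_pmOne]
    right
    rw [neg_mul, one_mul, neg_inv_SL, neg_mul, inv_mul_cancel]

/-- **Simple connectivity of the Farey complex.**  An edge function `e` (`e g` is the value on the
oriented edge `g∞ → g0`) which is alternating and has zero sums around the Farey triangles
is the coboundary of a function `κ` on the cusps. -/
theorem exists_kappa (e : SL(2, ℤ) → K) (he_neg : ∀ g, e (-g) = e g)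
    (he_S : ∀ g, e (g * S) = - e g)
    (he_R : ∀ g, e g + e (g * Rm) + e (g * Rm * Rm) = 0) :
    ∃ κ : V → K, ∀ g : SL(2, ℤ), κ (g • M.zero) - κ (g • M.inf) = e g := by
  classical
  -- the data for `exists_cocycle`
  set a : SL(2, ℤ) ⧸ pmOne → K := invLift e he_neg with ha
  set c : SL(2, ℤ) ⧸ pmOne → K := fun x => a ((T : SL(2, ℤ)) • x) with hc
  have ha_mk : ∀ h : SL(2, ℤ), a (h : SL(2, ℤ) ⧸ pmOne) = e h⁻¹ := fun h => rfl
  have hSi : ∀ g : SL(2, ℤ), e (g * S⁻¹) = - e g := by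
    intro g
    rw [S_inv, mul_neg, he_neg, he_S]
  have h1 : ∀ x, a x + a ((S : SL(2, ℤ)) • x) = 0 := by
    intro x
    induction x using QuotientGroup.induction_on with
    | H h =>
      rw [smul_mk_pmOne, ha_mk, ha_mk, mul_inv_rev, hSi, add_neg_cancel]
  have h2 : ∀ x, c x + c ((S * T : SL(2, ℤ)) • x) + c ((S * T : SL(2, ℤ)) • (S * T : SL(2, ℤ)) • x)
      = 0 := by
    intro x
    induction x using QuotientGroup.induction_on with
    | H h =>
      simp only [hc, smul_mk_pmOne, ha_mk]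
      -- g' = h⁻¹ T⁻¹ S⁻¹
      set g' : SL(2, ℤ) := h⁻¹ * T⁻¹ * S⁻¹ with hg'
      have e0 : (T * h)⁻¹ = g' * S := by
        rw [hg', mul_inv_rev, inv_mul_cancel_right]
      have e1 : (T * (S * T * h))⁻¹ = -(g' * Rm * Rm) * S := by
        have : (T * (S * T * h))⁻¹ = g' * Rm⁻¹ * S := by
          rw [hg', T_inv_eq]
          simp only [mul_inv_rev, Rm, mul_assoc]
          group
        rw [this, Rm_inv, mul_neg, ← mul_assoc]
      have e2 : (T * (S * T * (S * T * h)))⁻¹ = -(g' * Rm) * S := by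
        have : (T * (S * T * (S * T * h)))⁻¹ = g' * (Rm⁻¹ * Rm⁻¹) * S := by
          rw [hg', T_inv_eq]
          simp only [mul_inv_rev, Rm, mul_assoc]
          group
        rw [this, Rm_inv_sq, mul_neg]
      rw [e0, e1, e2, he_S, he_S, he_S, he_neg, he_neg]
      have := he_R g'
      rw [← neg_add, ← neg_add, neg_eq_zero]
      rw [add_assoc, add_comm (e (g' * Rm * Rm)), ← add_assoc]
      exact this
  obtain ⟨f, hf, hfS, hfST⟩ :=
    Fermat.Agent.S21.H585.exists_cocycle (X := SL(2, ℤ) ⧸ pmOne) (A := K)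
      neg_smul_pmOne a c h1 h2
  -- `f T = 0`
  have hfT : ∀ x, f T x = 0 := by
    intro x
    have h3 := hf S T x
    rw [hfST, hfS] at h3
    simpa [hc] using h3
  have hfneg : ∀ x, f (-1) x = 0 := by
    intro x
    have h3 := hf S S x
    rw [S_mul_S, hfS] at h3
    rw [h3]
    exact h1 x
  have hfTn : ∀ (n : ℤ) x, f (T ^ n) x = 0 := by
    have hnat : ∀ (n : ℕ) x, f (T ^ n) x = 0 := by
      intro n
      induction n with
      | zero => intro x; simpa using hf.map_one x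
      | succ n ih =>
        intro x
        rw [pow_succ, hf, hfT, ih, add_zero]
    intro n x
    rcases Int.eq_nat_or_neg n with ⟨m, rfl | rfl⟩
    · rw [zpow_natCast]; exact hnat m x
    · rw [zpow_neg, zpow_natCast, hf.map_inv', hnat, neg_zero]
  set x₀ : SL(2, ℤ) ⧸ pmOne := ((1 : SL(2, ℤ)) : SL(2, ℤ) ⧸ pmOne) with hx₀
  -- `κ̂ g = f g⁻¹ x₀`
  set kh : SL(2, ℤ) → K := fun g => f g⁻¹ x₀ with hkh
  have hkh_T : ∀ (g : SL(2, ℤ)) (n : ℤ), kh (g * T ^ n) = kh g := by
    intro g n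
    simp only [hkh]
    rw [mul_inv_rev, hf, ← zpow_neg, hfTn, add_zero]
  have hkh_neg : ∀ g : SL(2, ℤ), kh (-g) = kh g := by
    intro g
    simp only [hkh]
    have : (-g)⁻¹ = (-1) * g⁻¹ := by rw [neg_inv_SL, neg_mul, one_mul]
    rw [this, hf, hfneg, add_zero]
  have hkh_S : ∀ g : SL(2, ℤ), kh (g * S) - kh g = e g := by
    intro g
    simp only [hkh]
    rw [mul_inv_rev, hf, S_inv]
    have h4 : f (-S) (g⁻¹ • x₀) = f S (g⁻¹ • x₀) := by
      have : (-S : SL(2, ℤ)) = (-1) * S := by rw [neg_mul, one_mul]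
      rw [this, hf, hfneg, add_zero]
    rw [h4, hfS, add_sub_cancel_left, hx₀, smul_mk_pmOne, ha_mk, mul_one, inv_inv]
  -- descend to `V`
  choose r hr using M.trans
  refine ⟨fun v => kh (r v), fun g => ?_⟩
  have hwd : ∀ g : SL(2, ℤ), kh (r (g • M.inf)) = kh g := by
    intro g
    obtain ⟨n, hn | hn⟩ := M.eq_mul_of_smul_inf_eq (hr (g • M.inf)).symm
    · rw [hn, hkh_T]
    · rw [hn, hkh_neg, hkh_T]
  show kh (r (g • M.zero)) - kh (r (g • M.inf)) = e g
  rw [CuspModel.zero, ← mul_smul, hwd, hwd, hkh_S]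

omit [AddCommGroup K] in
/-- **Connectivity of the Farey graph**: a function on the cusps which is constant along all
Farey edges `g∞ — g0` is constant. -/
theorem const_of_edge (l : V → K) (h : ∀ g : SL(2, ℤ), l (g • M.zero) = l (g • M.inf)) (v : V) :
    l v = l M.inf := by
  obtain ⟨g, rfl⟩ := M.trans v
  have hg : g ∈ Subgroup.closure ({S, T} : Set SL(2, ℤ)) := by
    rw [_root_.SpecialLinearGroup.SL2Z_generators]; trivial
  have key : ∀ g ∈ Subgroup.closure ({S, T} : Set SL(2, ℤ)),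
      ∀ g₀ : SL(2, ℤ), l ((g₀ * g) • M.inf) = l (g₀ • M.inf) := by
    intro g hg
    induction hg using Subgroup.closure_induction with
    | mem x hx =>
      intro g₀
      rcases hx with rfl | rfl
      · rw [mul_smul]; exact h g₀
      · rw [mul_smul, M.T_smul_inf]
    | one => intro g₀; rw [mul_one]
    | mul a b _ _ ha hb =>
      intro g₀
      rw [← mul_assoc, hb, ha]
    | inv a _ ha =>
      intro g₀
      have := ha (g₀ * a⁻¹)
      rw [inv_mul_cancel_right] at this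
      exact this.symm
  have := key g hg 1
  rwa [one_mul, one_smul] at this

end Kappa

end Fermat.Agent.S41.H621
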