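import Mathlib
import Fermat.Agent.S21.ParDimLA
import Fermat.Agent.S41.H621.StarKappa

/-!
# S41 / PD (helper621) — independence of the tessellation (abstract form)

For a cusp model `M` (abstract `P¹(ℚ)`), a finite index subgroup `Γ ∋ -1` of `SL(2,ℤ)`,
and an alternating `Γ`-invariant 2-cocycle `c` on the cusps with values in a field of
characteristic zero:

* `exists_cobd_of_sum_eq_zero` : if the sum of `c` over the Farey triangles modulo `Γ` vanishes,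
  then `c` is the coboundary of a `Γ`-invariant alternating 1-cochain;
* `sum_cobd_eq_zero` : the sum of a coboundary of an invariant 1-cochain over the
  `D`-translated Farey triangles vanishes;
* `star` : the sum of `c` over the Farey triangles equals its sum over the `D`-translated Farey
  triangles, provided an invariant orientation cocycle exists.
-/

set_option autoImplicit false

namespace Fermat.Agent.S41.H621

open Matrix.SpecialLinearGroup ModularGroup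
open scoped MatrixGroups

section Cochains

variable {V : Type*} {K : Type*} [AddCommGroup K]

/-- Alternating 2-cochains on the full simplex on `V`. -/
structure IsAlt₂ (c : V → V → V → K) : Prop where
  swap₁₂ : ∀ u v w, c v u w = - c u v w
  swap₂₃ : ∀ u v w, c u w v = - c u v w

/-- 2-cocycles on the full simplex on `V`. -/
def IsCoc₂ (c : V → V → V → K) : Prop :=
  ∀ u v w z, c v w z - c u w z + c u v z - c u v w = 0

theorem IsAlt₂.cyc {c : V → V → V → K} (h : IsAlt₂ c) (u v w : V) : c v w u = c u v w := by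
  rw [h.swap₂₃ v u w, h.swap₁₂ u v w, neg_neg]

theorem IsAlt₂.cyc' {c : V → V → V → K} (h : IsAlt₂ c) (u v w : V) : c w u v = c u v w := by
  rw [h.cyc w u v, h.cyc v w u]

end Cochains

section Coset

variable (Γ : Subgroup SL(2, ℤ)) {K : Type*}

/-- A function on `SL(2,ℤ)`, evaluated at the inverse of a representative of a left coset. -/
noncomputable def cosetFn (F : SL(2, ℤ) → K) : SL(2, ℤ) ⧸ Γ → K := fun x => F (x.out)⁻¹

variable {Γ}

theorem cosetFn_mk {F : SL(2, ℤ) → K} (hF : ∀ γ ∈ Γ, ∀ g, F (γ * g) = F g) (g : SL(2, ℤ)) :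
    cosetFn Γ F (g : SL(2, ℤ) ⧸ Γ) = F g⁻¹ := by
  obtain ⟨γ, hγ⟩ := QuotientGroup.mk_out_eq_mul Γ g
  show F ((g : SL(2, ℤ) ⧸ Γ).out)⁻¹ = F g⁻¹
  rw [hγ, mul_inv_rev]
  exact hF _ (inv_mem γ.2) _

theorem cosetFn_smul {F : SL(2, ℤ) → K} (hF : ∀ γ ∈ Γ, ∀ g, F (γ * g) = F g) (h : SL(2, ℤ))
    (x : SL(2, ℤ) ⧸ Γ) : cosetFn Γ F (h • x) = cosetFn Γ (fun g => F (g * h⁻¹)) x := by
  induction x using QuotientGroup.induction_on with
  | H g =>
    have hF' : ∀ γ ∈ Γ, ∀ g, (fun g => F (g * h⁻¹)) (γ * g) = (fun g => F (g * h⁻¹)) g := by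
      intro γ hγ g
      show F (γ * g * h⁻¹) = F (g * h⁻¹)
      rw [mul_assoc]
      exact hF γ hγ _
    rw [cosetFn_mk hF', MulAction.Quotient.smul_mk, cosetFn_mk hF, smul_eq_mul, mul_inv_rev]

theorem neg_smul_coset (hneg : (-1 : SL(2, ℤ)) ∈ Γ) (x : SL(2, ℤ) ⧸ Γ) :
    (-1 : SL(2, ℤ)) • x = x := by
  induction x using QuotientGroup.induction_on with
  | H h =>
    rw [MulAction.Quotient.smul_mk, QuotientGroup.eq, smul_eq_mul, neg_mul, one_mul, neg_inv_SL,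
      neg_mul, inv_mul_cancel]
    exact hneg

/-- Transitivity of `⟨S⁻¹, R⁻¹⟩` on the cosets, in the form used by `ParDimLA`. -/
theorem perm_trans' (hneg : (-1 : SL(2, ℤ)) ∈ Γ) (P : Set (SL(2, ℤ) ⧸ Γ))
    (hS : ∀ q ∈ P, (S⁻¹ : SL(2, ℤ)) • q ∈ P) (hR : ∀ q ∈ P, (Rm⁻¹ : SL(2, ℤ)) • q ∈ P)
    (hne : P.Nonempty) : P = Set.univ := by
  have eS : ∀ q : SL(2, ℤ) ⧸ Γ, (S : SL(2, ℤ)) • q = (S⁻¹ : SL(2, ℤ)) • q := fun q => by
    rw [S_inv]
    have : (-S : SL(2, ℤ)) = (-1) * S := by rw [neg_mul, one_mul]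
    rw [this, mul_smul, neg_smul_coset hneg]
  have eR : ∀ q : SL(2, ℤ) ⧸ Γ,
      (Rm : SL(2, ℤ)) • q = (Rm⁻¹ : SL(2, ℤ)) • (Rm⁻¹ : SL(2, ℤ)) • q := fun q => by
    rw [← mul_smul, Rm_inv_sq]
    have : (-Rm : SL(2, ℤ)) = (-1) * Rm := by rw [neg_mul, one_mul]
    rw [this, mul_smul, neg_smul_coset hneg]
  have eT : ∀ q : SL(2, ℤ) ⧸ Γ, (T : SL(2, ℤ)) • q = (S⁻¹ : SL(2, ℤ)) • (Rm : SL(2, ℤ)) • q :=
    fun q => by rw [← mul_smul, Rm, inv_mul_cancel_left]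
  have eTinv : ∀ q : SL(2, ℤ) ⧸ Γ,
      (T⁻¹ : SL(2, ℤ)) • q = (Rm⁻¹ : SL(2, ℤ)) • (S : SL(2, ℤ)) • q :=
    fun q => by rw [← mul_smul, T_inv_eq]
  have key : ∀ x : SL(2, ℤ), x ∈ Subgroup.closure ({S, T} : Set SL(2, ℤ)) →
      ∀ q ∈ P, x • q ∈ P ∧ x⁻¹ • q ∈ P := by
    intro x hx
    induction hx using Subgroup.closure_induction with
    | mem x hx =>
      intro q hq
      rcases hx with rfl | hx
      · rw [eS]
        exact ⟨hS q hq, hS q hq⟩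
      · rw [Set.mem_singleton_iff] at hx
        subst hx
        rw [eT, eTinv, eR, eS]
        exact ⟨hS _ (hR _ (hR q hq)), hR _ (hS q hq)⟩
    | one => intro q hq; simpa using hq
    | mul x y _ _ hx hy =>
      intro q hq
      refine ⟨?_, ?_⟩
      · rw [mul_smul]
        exact (hx _ (hy q hq).1).1
      · rw [mul_inv_rev, mul_smul]
        exact (hy _ (hx q hq).2).2
    | inv x _ hx =>
      intro q hq
      rw [inv_inv]
      exact ⟨(hx q hq).2, (hx q hq).1⟩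
  obtain ⟨q₀, hq₀⟩ := hne
  rw [Set.eq_univ_iff_forall]
  intro q
  obtain ⟨g, rfl⟩ := MulAction.exists_smul_eq SL(2, ℤ) q₀ q
  have hg : g ∈ Subgroup.closure ({S, T} : Set SL(2, ℤ)) := by
    rw [_root_.SpecialLinearGroup.SL2Z_generators]
    trivial
  exact (key g hg q₀ hq₀).1

end Coset

section Star

variable {V : Type*} [MulAction SL(2, ℤ) V] (M : CuspModel V) {K : Type*}

/-- The value of a 2-cochain on the Farey triangle `g • (∞, 0, -1)`. -/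
def evalTri (c : V → V → V → K) (g : SL(2, ℤ)) : K := c (g • M.inf) (g • M.zero) (g • M.mone)

/-- `Γ`-invariance of a 2-cochain. -/
def IsInv₂ (Γ : Subgroup SL(2, ℤ)) (c : V → V → V → K) : Prop :=
  ∀ γ ∈ Γ, ∀ u v w, c (γ • u) (γ • v) (γ • w) = c u v w

/-- `Γ`-invariance of a 1-cochain. -/
def IsInv₁ (Γ : Subgroup SL(2, ℤ)) (b : V → V → K) : Prop :=
  ∀ γ ∈ Γ, ∀ u v, b (γ • u) (γ • v) = b u v


variable {M}

theorem evalTri_mul_Rm {c : V → V → V → K} [AddCommGroup K] (hc : IsAlt₂ c) (g : SL(2, ℤ)) :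
    evalTri M c (g * Rm) = evalTri M c g := by
  unfold evalTri
  rw [mul_smul, mul_smul, mul_smul, M.Rm_smul_inf, M.Rm_smul_zero, M.Rm_smul_mone]
  exact hc.cyc _ _ _

theorem evalTri_inv_mul {Γ : Subgroup SL(2, ℤ)} {c : V → V → V → K} (hc : IsInv₂ Γ c)
    (γ : SL(2, ℤ)) (hγ : γ ∈ Γ) (g : SL(2, ℤ)) : evalTri M c (γ * g) = evalTri M c g := by
  unfold evalTri
  rw [mul_smul, mul_smul, mul_smul]
  exact hc γ hγ _ _ _


section Step1

variable [Field K] [CharZero K] (Γ : Subgroup SL(2, ℤ)) [Fintype (SL(2, ℤ) ⧸ Γ)]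

omit [MulAction SL(2, ℤ) V] in
/-- Step 1 (i): linear algebra on the coset space. -/
theorem exists_edge_of_sum_eq_zero (hneg : (-1 : SL(2, ℤ)) ∈ Γ)
    (C : SL(2, ℤ) → K) (hΓ : ∀ γ ∈ Γ, ∀ g, C (γ * g) = C g) (hR : ∀ g, C (g * Rm) = C g)
    (hsum : ∑ x : SL(2, ℤ) ⧸ Γ, cosetFn Γ C x = 0) :
    ∃ β : SL(2, ℤ) → K, (∀ γ ∈ Γ, ∀ g, β (γ * g) = β g) ∧ (∀ g, β (-g) = β g) ∧
      (∀ g, β (g * S) = - β g) ∧ ∀ g, β g + β (g * Rm) + β (g * Rm * Rm) = C g := by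
  classical
  set σ : Equiv.Perm (SL(2, ℤ) ⧸ Γ) := MulAction.toPerm (S⁻¹ : SL(2, ℤ)) with hσdef
  set ρ : Equiv.Perm (SL(2, ℤ) ⧸ Γ) := MulAction.toPerm (Rm⁻¹ : SL(2, ℤ)) with hρdef
  have hσ : ∀ q, σ (σ q) = q := by
    intro q
    show (S⁻¹ : SL(2, ℤ)) • (S⁻¹ : SL(2, ℤ)) • q = q
    rw [← mul_smul, ← mul_inv_rev, S_mul_S, inv_smul_eq_iff, neg_smul_coset hneg]
  have hρ : ∀ q, ρ (ρ (ρ q)) = q := by
    intro q
    show (Rm⁻¹ : SL(2, ℤ)) • (Rm⁻¹ : SL(2, ℤ)) • (Rm⁻¹ : SL(2, ℤ)) • q = q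
    rw [← mul_smul, ← mul_smul, ← mul_inv_rev, ← mul_inv_rev, ← mul_assoc, Rm_cube,
      inv_smul_eq_iff, neg_smul_coset hneg]
  have htrans : ∀ P : Set (SL(2, ℤ) ⧸ Γ), (∀ q ∈ P, σ q ∈ P) → (∀ q ∈ P, ρ q ∈ P) →
      P.Nonempty → P = Set.univ := fun P h1 h2 h3 => perm_trans' hneg P h1 h2 h3
  have hmem : cosetFn Γ C ∈ LinearMap.ker (Fermat.Agent.S21.ParDim.sumFun K
      (Q := SL(2, ℤ) ⧸ Γ)) := by
    rw [LinearMap.mem_ker]
    exact hsum
  have hsup := Fermat.Agent.S21.ParDim.ker_sumFun_le_sup K σ ρ hσ hρ htrans hmem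
  obtain ⟨ξ₁, h1, ξ₂, h2, h12⟩ := Submodule.mem_sup.mp hsup
  rw [Fermat.Agent.S21.ParDim.mem_negSub] at h1
  rw [Fermat.Agent.S21.ParDim.mem_triSub] at h2
  have hCρ : ∀ q, cosetFn Γ C (ρ q) = cosetFn Γ C q := by
    intro q
    show cosetFn Γ C ((Rm⁻¹ : SL(2, ℤ)) • q) = _
    rw [cosetFn_smul hΓ]
    congr 1
    funext g
    rw [inv_inv, hR]
  have hξ : ∀ q, ξ₁ q + ξ₁ (ρ q) + ξ₁ (ρ (ρ q)) = 3 * cosetFn Γ C q := by
    intro q
    have e1 := congrFun h12 q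
    have e2 := congrFun h12 (ρ q)
    have e3 := congrFun h12 (ρ (ρ q))
    simp only [Pi.add_apply] at e1 e2 e3
    rw [hCρ, hCρ] at e3
    rw [hCρ] at e2
    have := h2 q
    linear_combination e1 + e2 + e3 - this
  refine ⟨fun g => ξ₁ ((g⁻¹ : SL(2, ℤ)) : SL(2, ℤ) ⧸ Γ) / 3, ?_, ?_, ?_, ?_⟩
  · intro γ hγ g
    have : (((γ * g)⁻¹ : SL(2, ℤ)) : SL(2, ℤ) ⧸ Γ) = ((g⁻¹ : SL(2, ℤ)) : SL(2, ℤ) ⧸ Γ) := by
      rw [QuotientGroup.eq, inv_inv, mul_assoc, mul_inv_cancel, mul_one]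
      exact hγ
    show ξ₁ _ / 3 = ξ₁ _ / 3
    rw [this]
  · intro g
    have : (((-g)⁻¹ : SL(2, ℤ)) : SL(2, ℤ) ⧸ Γ) = ((g⁻¹ : SL(2, ℤ)) : SL(2, ℤ) ⧸ Γ) := by
      rw [QuotientGroup.eq, inv_inv, neg_mul, mul_inv_cancel]
      exact hneg
    show ξ₁ _ / 3 = ξ₁ _ / 3
    rw [this]
  · intro g
    have : (((g * S)⁻¹ : SL(2, ℤ)) : SL(2, ℤ) ⧸ Γ) = σ ((g⁻¹ : SL(2, ℤ)) : SL(2, ℤ) ⧸ Γ) := by
      rw [mul_inv_rev]; rfl
    show ξ₁ _ / 3 = - (ξ₁ _ / 3)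
    rw [this]
    have := h1 ((g⁻¹ : SL(2, ℤ)) : SL(2, ℤ) ⧸ Γ)
    linear_combination this / 3
  · intro g
    have e1 : (((g * Rm)⁻¹ : SL(2, ℤ)) : SL(2, ℤ) ⧸ Γ) =
        ρ ((g⁻¹ : SL(2, ℤ)) : SL(2, ℤ) ⧸ Γ) := by
      rw [mul_inv_rev]; rfl
    have e2 : (((g * Rm * Rm)⁻¹ : SL(2, ℤ)) : SL(2, ℤ) ⧸ Γ) =
        ρ (ρ ((g⁻¹ : SL(2, ℤ)) : SL(2, ℤ) ⧸ Γ)) := by
      rw [mul_inv_rev, mul_inv_rev]; rfl
    show ξ₁ _ / 3 + ξ₁ _ / 3 + ξ₁ _ / 3 = C g
    rw [e1, e2]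
    have := hξ ((g⁻¹ : SL(2, ℤ)) : SL(2, ℤ) ⧸ Γ)
    rw [cosetFn_mk hΓ, inv_inv] at this
    linear_combination this / 3

/-- **Step 1.**  An alternating invariant 2-cocycle whose sum over the Farey triangles modulo `Γ`
vanishes is the coboundary of an alternating invariant 1-cochain. -/
theorem exists_cobd_of_sum_eq_zero (M : CuspModel V) (hneg : (-1 : SL(2, ℤ)) ∈ Γ)
    (c : V → V → V → K) (hca : IsAlt₂ c) (hcc : IsCoc₂ c) (hci : IsInv₂ Γ c)
    (hsum : ∑ x : SL(2, ℤ) ⧸ Γ, cosetFn Γ (evalTri M c) x = 0) :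
    ∃ b : V → V → K, (∀ u v, b v u = - b u v) ∧ IsInv₁ Γ b ∧
      ∀ u v w, c u v w = b v w - b u w + b u v := by
  obtain ⟨β, hβΓ, hβneg, hβS, hβR⟩ := exists_edge_of_sum_eq_zero Γ hneg (evalTri M c)
    (fun γ hγ g => evalTri_inv_mul hci γ hγ g) (fun g => evalTri_mul_Rm hca g) hsum
  -- the defect from the cone
  set e : SL(2, ℤ) → K := fun g => β g - c M.inf (g • M.inf) (g • M.zero) with he
  have he_neg : ∀ g, e (-g) = e g := by
    intro g
    simp only [he]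
    rw [hβneg, M.neg_smul', M.neg_smul']
  have he_S : ∀ g, e (g * S) = - e g := by
    intro g
    simp only [he]
    rw [hβS, mul_smul, mul_smul, M.S_smul_inf, M.S_smul_zero, hca.swap₂₃]
    ring
  have he_R : ∀ g, e g + e (g * Rm) + e (g * Rm * Rm) = 0 := by
    intro g
    simp only [he]
    have h1 := hβR g
    have h2 := hcc M.inf (g • M.inf) (g • M.zero) (g • M.mone)
    have h3 := hca.swap₂₃ M.inf (g • M.inf) (g • M.mone)
    rw [mul_smul, mul_smul, M.Rm_smul_inf, M.Rm_smul_zero, mul_smul, mul_smul, mul_smul,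
      mul_smul, M.Rm_smul_inf, M.Rm_smul_zero, M.Rm_smul_mone]
    unfold evalTri at h1
    linear_combination h1 + h2 - h3
  obtain ⟨κ, hκ⟩ := exists_kappa M e he_neg he_S he_R
  set b : V → V → K := fun u v => c M.inf u v + κ v - κ u with hb
  have hba : ∀ u v, b v u = - b u v := by
    intro u v
    simp only [hb]
    rw [hca.swap₂₃]
    ring
  have hbd : ∀ u v w, c u v w = b v w - b u w + b u v := by
    intro u v w
    simp only [hb]
    have := hcc M.inf u v w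
    linear_combination this
  have hedge : ∀ g : SL(2, ℤ), b (g • M.inf) (g • M.zero) = β g := by
    intro g
    simp only [hb]
    have := hκ g
    simp only [he] at this
    linear_combination this
  refine ⟨b, hba, ?_, hbd⟩
  intro γ hγ
  -- `ε = b^γ - b` is a cocycle vanishing on the Farey edges
  set ε : V → V → K := fun u v => b (γ • u) (γ • v) - b u v with hε
  have hε_add : ∀ u v w, ε u w = ε u v + ε v w := by
    intro u v w
    simp only [hε]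
    have h1 := hbd u v w
    have h2 := hbd (γ • u) (γ • v) (γ • w)
    rw [hci γ hγ] at h2
    linear_combination h2 - h1
  have hε_edge : ∀ g : SL(2, ℤ), ε (g • M.inf) (g • M.zero) = 0 := by
    intro g
    simp only [hε]
    rw [← mul_smul, ← mul_smul, hedge, hedge, hβΓ γ hγ, sub_self]
  have hconst := const_of_edge M (fun v => ε M.inf v) (fun g => by
    have := hε_add M.inf (g • M.inf) (g • M.zero)
    rw [hε_edge, add_zero] at this
    exact this)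
  intro u v
  have h1 := hε_add M.inf u v
  have h2 : ε M.inf u = ε M.inf M.inf := hconst u
  have h3 : ε M.inf v = ε M.inf M.inf := hconst v
  have h4 : ε u v = 0 := by
    rw [h2, h3] at h1
    exact (left_eq_add.mp h1)
  simp only [hε] at h4
  exact sub_eq_zero.mp h4

end Step1

section Step2

variable [Field K] [CharZero K] (Γ₁ Γ₂ : Subgroup SL(2, ℤ)) [Fintype (SL(2, ℤ) ⧸ Γ₁)]

omit [MulAction SL(2, ℤ) V] [CharZero K] in
theorem sum_cosetFn_smul (F : SL(2, ℤ) → K) (h : SL(2, ℤ)) :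
    ∑ x : SL(2, ℤ) ⧸ Γ₁, cosetFn Γ₁ F (h • x) = ∑ x : SL(2, ℤ) ⧸ Γ₁, cosetFn Γ₁ F x :=
  Equiv.sum_comp (MulAction.toPerm h) (cosetFn Γ₁ F)

/-- **Step 2.**  The sum of the coboundary of an invariant alternating 1-cochain over the
`D`-translates of the Farey triangles (modulo `Γ₁`) vanishes. -/
theorem sum_cobd_eq_zero (M : CuspModel V)
    (D : V → V) (hD : ∀ γ ∈ Γ₁, ∃ γ' ∈ Γ₂, ∀ v, D (γ • v) = γ' • D v)
    (b : V → V → K) (hba : ∀ u v, b v u = - b u v) (hbi : IsInv₁ Γ₂ b) :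
    ∑ x : SL(2, ℤ) ⧸ Γ₁, cosetFn Γ₁ (fun g => b (D (g • M.zero)) (D (g • M.mone))
      - b (D (g • M.inf)) (D (g • M.mone)) + b (D (g • M.inf)) (D (g • M.zero))) x = 0 := by
  set F : SL(2, ℤ) → K := fun g => b (D (g • M.inf)) (D (g • M.zero)) with hF
  have hFΓ : ∀ γ ∈ Γ₁, ∀ g, F (γ * g) = F g := by
    intro γ hγ g
    obtain ⟨γ', hγ', h⟩ := hD γ hγ
    simp only [hF]
    rw [mul_smul, mul_smul, h, h]
    exact hbi γ' hγ' _ _
  have hFS : ∀ g, F (g * S) = - F g := by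
    intro g
    simp only [hF]
    rw [mul_smul, mul_smul, M.S_smul_inf, M.S_smul_zero, hba]
  have hFR : ∀ g, F (g * Rm) = b (D (g • M.zero)) (D (g • M.mone)) := by
    intro g
    simp only [hF]
    rw [mul_smul, mul_smul, M.Rm_smul_inf, M.Rm_smul_zero]
  have hFRR : ∀ g, F (g * Rm * Rm) = - b (D (g • M.inf)) (D (g • M.mone)) := by
    intro g
    simp only [hF]
    rw [mul_smul, mul_smul, mul_smul, mul_smul, M.Rm_smul_inf, M.Rm_smul_zero, M.Rm_smul_mone,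
      hba]
  -- the sum of `F` vanishes
  have h0 : ∑ x : SL(2, ℤ) ⧸ Γ₁, cosetFn Γ₁ F x = 0 := by
    have h1 := sum_cosetFn_smul Γ₁ F (S⁻¹ : SL(2, ℤ))
    have h2 : ∀ x : SL(2, ℤ) ⧸ Γ₁, cosetFn Γ₁ F ((S⁻¹ : SL(2, ℤ)) • x) = - cosetFn Γ₁ F x := by
      intro x
      rw [cosetFn_smul hFΓ]
      show F ((x.out)⁻¹ * S⁻¹⁻¹) = - F (x.out)⁻¹
      rw [inv_inv, hFS]
    simp only [h2, Finset.sum_neg_distrib] at h1
    have h3 : (2 : K) * ∑ x : SL(2, ℤ) ⧸ Γ₁, cosetFn Γ₁ F x = 0 := by linear_combination -h1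
    rcases mul_eq_zero.mp h3 with h | h
    · exact absurd h two_ne_zero
    · exact h
  have h1 : ∀ x : SL(2, ℤ) ⧸ Γ₁, cosetFn Γ₁ (fun g => b (D (g • M.zero)) (D (g • M.mone))
      - b (D (g • M.inf)) (D (g • M.mone)) + b (D (g • M.inf)) (D (g • M.zero))) x =
      cosetFn Γ₁ F ((Rm⁻¹ : SL(2, ℤ)) • x) + cosetFn Γ₁ F ((Rm⁻¹ * Rm⁻¹ : SL(2, ℤ)) • x)
        + cosetFn Γ₁ F x := by
    intro x
    rw [cosetFn_smul hFΓ, cosetFn_smul hFΓ]
    show _ = F ((x.out)⁻¹ * Rm⁻¹⁻¹) + F ((x.out)⁻¹ * (Rm⁻¹ * Rm⁻¹)⁻¹) + F (x.out)⁻¹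
    rw [mul_inv_rev, inv_inv, ← mul_assoc, hFR, hFRR]
    show b _ _ - b _ _ + b _ _ = _
    ring
  simp only [h1, Finset.sum_add_distrib, sum_cosetFn_smul, h0, add_zero]

end Step2

section Main

variable [Field K] [CharZero K] (Γ₁ Γ₂ : Subgroup SL(2, ℤ)) [Fintype (SL(2, ℤ) ⧸ Γ₁)]
  [Fintype (SL(2, ℤ) ⧸ Γ₂)]

/-- **Independence of the tessellation.**  Let `D : V → V` intertwine the action of `Γ₁` with
that of `Γ₂` (two subgroups of the same finite index containing `-1`), and let `or` be an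
orientation cocycle, invariant under `SL(2,ℤ)` and `D`, normalised by `or(∞,0,-1) = 1`.
Then for every alternating `Γ₂`-invariant 2-cocycle `c` the sum of `c` over the `D`-translates
of the Farey triangles modulo `Γ₁` equals its sum over the Farey triangles modulo `Γ₂`. -/
theorem star (M : CuspModel V)
    (hcard : Fintype.card (SL(2, ℤ) ⧸ Γ₁) = Fintype.card (SL(2, ℤ) ⧸ Γ₂))
    (hneg₂ : (-1 : SL(2, ℤ)) ∈ Γ₂)
    (D : V → V) (hD : ∀ γ ∈ Γ₁, ∃ γ' ∈ Γ₂, ∀ v, D (γ • v) = γ' • D v)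
    (or : V → V → V → K) (hoa : IsAlt₂ or) (hoc : IsCoc₂ or)
    (hoi : ∀ (g : SL(2, ℤ)) (u v w : V), or (g • u) (g • v) (g • w) = or u v w)
    (hoD : ∀ u v w, or (D u) (D v) (D w) = or u v w)
    (ho1 : or M.inf M.zero M.mone = 1)
    (c : V → V → V → K) (hca : IsAlt₂ c) (hcc : IsCoc₂ c) (hci : IsInv₂ Γ₂ c) :
    ∑ x : SL(2, ℤ) ⧸ Γ₁, cosetFn Γ₁
        (fun g => c (D (g • M.inf)) (D (g • M.zero)) (D (g • M.mone))) x =
      ∑ x : SL(2, ℤ) ⧸ Γ₂, cosetFn Γ₂ (evalTri M c) x := by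
  set n : K := (Fintype.card (SL(2, ℤ) ⧸ Γ₂) : K) with hn
  have hn0 : n ≠ 0 := by
    rw [hn]
    have : Nonempty (SL(2, ℤ) ⧸ Γ₂) := ⟨((1 : SL(2, ℤ)) : SL(2, ℤ) ⧸ Γ₂)⟩
    exact_mod_cast Fintype.card_ne_zero
  set I : K := ∑ x : SL(2, ℤ) ⧸ Γ₂, cosetFn Γ₂ (evalTri M c) x with hI
  set lam : K := I / n with hlam
  -- the corrected cocycle
  set c' : V → V → V → K := fun u v w => c u v w - lam * or u v w with hc'
  have hca' : IsAlt₂ c' := by
    refine ⟨fun u v w => ?_, fun u v w => ?_⟩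
    · simp only [hc']; rw [hca.swap₁₂, hoa.swap₁₂]; ring
    · simp only [hc']; rw [hca.swap₂₃, hoa.swap₂₃]; ring
  have hcc' : IsCoc₂ c' := by
    intro u v w z
    simp only [hc']
    have h1 := hcc u v w z
    have h2 := hoc u v w z
    linear_combination h1 - lam * h2
  have hci' : IsInv₂ Γ₂ c' := by
    intro γ hγ u v w
    simp only [hc']
    rw [hci γ hγ, hoi]
  have hor : ∀ g : SL(2, ℤ), or (g • M.inf) (g • M.zero) (g • M.mone) = 1 := by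
    intro g
    rw [hoi, ho1]
  have hsum' : ∑ x : SL(2, ℤ) ⧸ Γ₂, cosetFn Γ₂ (evalTri M c') x = 0 := by
    have h1 : ∀ x : SL(2, ℤ) ⧸ Γ₂, cosetFn Γ₂ (evalTri M c') x =
        cosetFn Γ₂ (evalTri M c) x - lam := by
      intro x
      show c' _ _ _ = c _ _ _ - lam
      simp only [hc']
      rw [hor, mul_one]
    simp only [h1, Finset.sum_sub_distrib, Finset.sum_const, Finset.card_univ, nsmul_eq_mul]
    rw [← hI, hlam, ← hn]
    field_simp
    ring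
  obtain ⟨b, hba, hbi, hbd⟩ := exists_cobd_of_sum_eq_zero Γ₂ M hneg₂ c' hca' hcc' hci' hsum'
  have h2 := sum_cobd_eq_zero Γ₁ Γ₂ M D hD b hba hbi
  have h3 : ∀ x : SL(2, ℤ) ⧸ Γ₁, cosetFn Γ₁ (fun g => b (D (g • M.zero)) (D (g • M.mone))
      - b (D (g • M.inf)) (D (g • M.mone)) + b (D (g • M.inf)) (D (g • M.zero))) x =
      cosetFn Γ₁ (fun g => c (D (g • M.inf)) (D (g • M.zero)) (D (g • M.mone))) x - lam := by
    intro x
    show b _ _ - b _ _ + b _ _ = c _ _ _ - lam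
    rw [← hbd]
    simp only [hc']
    rw [hoD, hor, mul_one]
  simp only [h3, Finset.sum_sub_distrib, Finset.sum_const, Finset.card_univ, nsmul_eq_mul] at h2
  rw [hcard, ← hn] at h2
  rw [sub_eq_zero] at h2
  rw [h2, hlam]
  field_simp

end Main

end Star

end Fermat.Agent.S41.H621
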